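/-
S28, piece (Φ): the substitution `x ↦ ξ x` on Laurent series over any commutative ring, its
compatibility with change of coefficients, the transcendence of `j(x^N)` over any field, and the
predicate `Holds R p ζ Φ` ("the modular equation of level `p` holds over `R` with the integral
polynomial `Φ`") with its functoriality.  Only Mathlib and the Prelude are imported.
-/
import Mathlib
import Fermat.Prelude.Def_ModularCurve_X0ModL

set_option autoImplicit false

noncomputable section

open ModularCurve HahnSeries Polynomial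

namespace Fermat.Agent.S28.Phi

section TwistU

variable {R S : Type*} [CommRing R] [CommRing S]

/-- The substitution `x ↦ ξ x` on Laurent series (`ξ` a unit): the coefficient of `x ^ k` is
multiplied by `ξ ^ k`. -/
def twistU (ξ : Rˣ) : LaurentSeries R →+* LaurentSeries R where
  toFun x := ⟨fun k => ((ξ ^ k : Rˣ) : R) * x.coeff k, x.isPWO_support.mono (fun k hk => by
    simp only [Function.mem_support, ne_eq, Units.mul_right_eq_zero] at hk
    exact hk)⟩
  map_one' := by
    ext k
    by_cases hk : k = 0
    · subst hk; simp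
    · simp [HahnSeries.coeff_one, hk]
  map_mul' x y := by
    ext k
    simp only [HahnSeries.coeff_mul, Finset.mul_sum]
    refine Finset.sum_congr ?_ fun ij hij => ?_
    · ext ij
      simp only [Finset.mem_antidiagonal, HahnSeries.mem_support, ne_eq, Units.mul_right_eq_zero]
    · rw [Finset.mem_antidiagonal] at hij
      rw [← hij.2.2, zpow_add, Units.val_mul]
      ring
  map_zero' := by
    ext k
    simp
  map_add' x y := by
    ext k
    simp [mul_add]

@[simp]
theorem twistU_coeff (ξ : Rˣ) (x : LaurentSeries R) (k : ℤ) :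
    (twistU ξ x).coeff k = ((ξ ^ k : Rˣ) : R) * x.coeff k := rfl

theorem coeffMap_twistU (f : R →+* S) (ξ : Rˣ) (x : LaurentSeries R) :
    coeffMap f (twistU ξ x) = twistU (Units.map (f : R →* S) ξ) (coeffMap f x) := by
  ext k
  rw [coeffMap_coeff, twistU_coeff, twistU_coeff, coeffMap_coeff, map_mul, ← map_zpow]
  rfl

theorem coeffMap_injective (f : R →+* S) (hf : Function.Injective f) :
    Function.Injective (coeffMap f) := by
  intro x y h
  ext k
  have := congrArg (fun z : LaurentSeries S => z.coeff k) h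
  exact hf (by simpa using this)

end TwistU

section Transcendence

variable (κ : Type*) [Field κ]

/-- `j` is transcendental over any field of constants. -/
theorem aeval_jqModC_ne_zero {f : κ[X]} (hf : f ≠ 0) : aeval (jqModC κ) f ≠ 0 := by
  intro h
  rw [Polynomial.aeval_def, Polynomial.eval₂_eq_sum_range] at h
  have h1 := congrArg (fun z : LaurentSeries κ => z.coeff (-(f.natDegree : ℤ))) h
  simp only [HahnSeries.coeff_zero] at h1
  rw [← HahnSeries.coeff.addMonoidHom_apply, map_sum] at h1
  simp only [HahnSeries.coeff.addMonoidHom_apply, algebraMap_laurentSeries_eq_single,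
    HahnSeries.coeff_single_zero_mul] at h1
  rw [Finset.sum_eq_single f.natDegree] at h1
  · rw [coeff_jqModC_pow_self, mul_one] at h1
    exact hf (Polynomial.leadingCoeff_eq_zero.mp h1)
  · intro i hi hne
    rw [coeff_jqModC_pow_of_lt, mul_zero]
    have := Finset.mem_range.mp hi
    omega
  · intro hn
    exact absurd (Finset.mem_range.mpr (Nat.lt_succ_self _)) hn

theorem aeval_qExpand_jqModC_ne_zero (N : ℕ) [NeZero N] {f : κ[X]} (hf : f ≠ 0) :
    aeval (qExpand κ N (jqModC κ)) f ≠ 0 := by
  have h : aeval (qExpand κ N (jqModC κ)) f = qExpand κ N (aeval (jqModC κ) f) := by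
    have := Polynomial.aeval_algHom_apply (qExpandAlgHomC κ N) (jqModC κ) f
    simpa using this
  rw [h]
  exact fun h0 => aeval_jqModC_ne_zero κ hf (qExpand_injective N (h0.trans (map_zero _).symm))

end Transcendence

/-! ### The modular equation over a ring, with integral coefficients -/

section Holds

variable (R : Type*) [CommRing R] {S : Type*} [CommRing S]

/-- Evaluation of integer polynomials at a Laurent series. -/
def evZ (y : LaurentSeries R) : ℤ[X] →+* LaurentSeries R :=
  Polynomial.eval₂RingHom (Int.castRingHom (LaurentSeries R)) y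

/-- The series `j(x^p)`. -/
def jY (p : ℕ) [NeZero p] : LaurentSeries R := qExpand R p (jqModC R)

/-- The polynomial `(X − j(x^(p²))) ∏_{b<p} (X − j(ζ^b x))`. -/
def psi (p : ℕ) [NeZero p] (ζ : Rˣ) : (LaurentSeries R)[X] :=
  (X - Polynomial.C (qExpand R p (qExpand R p (jqModC R))))
    * ∏ b ∈ Finset.range p, (X - Polynomial.C (twistU (ζ ^ b) (jqModC R)))

/-- The modular equation over `R` with the integral polynomial `Φ`:
`Φ(j(x^p), X) = a(j(x^p)) (X − j(x^(p²))) ∏_{b<p} (X − j(ζ^b x))`, `a` the coefficient of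
`X^(p+1)` in `Φ`. -/
def Holds (p : ℕ) [NeZero p] (ζ : Rˣ) (Φ : ℤ[X][X]) : Prop :=
  Φ.map (evZ R (jY R p)) = Polynomial.C (evZ R (jY R p) (Φ.coeff (p + 1))) * psi R p ζ

variable {R}

theorem coeffMap_comp_evZ (f : R →+* S) (y : LaurentSeries R) :
    (coeffMap f).comp (evZ R y) = evZ S (coeffMap f y) := by
  apply Polynomial.ringHom_ext
  · intro a
    simp [evZ]
  · simp [evZ]

theorem coeffMap_evZ (f : R →+* S) (y : LaurentSeries R) (P : ℤ[X]) :
    coeffMap f (evZ R y P) = evZ S (coeffMap f y) P := by
  rw [← coeffMap_comp_evZ]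
  rfl

theorem coeffMap_jY (f : R →+* S) (p : ℕ) [NeZero p] : coeffMap f (jY R p) = jY S p := by
  rw [jY, coeffMap_qExpand, coeffMap_jqModC, jY]

theorem map_psi (f : R →+* S) (p : ℕ) [NeZero p] (ζ : Rˣ) :
    (psi R p ζ).map (coeffMap f) = psi S p (Units.map (f : R →* S) ζ) := by
  rw [psi, psi, Polynomial.map_mul, Polynomial.map_sub, Polynomial.map_X, Polynomial.map_C,
    Polynomial.map_prod, coeffMap_qExpand, coeffMap_qExpand, coeffMap_jqModC]
  congr 1
  refine Finset.prod_congr rfl fun b _ => ?_
  rw [Polynomial.map_sub, Polynomial.map_X, Polynomial.map_C, coeffMap_twistU, coeffMap_jqModC,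
    map_pow]

theorem Holds.map {p : ℕ} [NeZero p] {ζ : Rˣ} {Φ : ℤ[X][X]} (h : Holds R p ζ Φ) (f : R →+* S) :
    Holds S p (Units.map (f : R →* S) ζ) Φ := by
  have h1 := congrArg (Polynomial.map (coeffMap f)) h
  rw [Polynomial.map_map, coeffMap_comp_evZ, coeffMap_jY, Polynomial.map_mul, Polynomial.map_C,
    coeffMap_evZ, coeffMap_jY, map_psi] at h1
  exact h1

theorem Holds.of_map {p : ℕ} [NeZero p] {ζ : Rˣ} {Φ : ℤ[X][X]} (f : R →+* S)
    (hf : Function.Injective f) (h : Holds S p (Units.map (f : R →* S) ζ) Φ) : Holds R p ζ Φ := by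
  apply Polynomial.map_injective (coeffMap f) (coeffMap_injective f hf)
  rw [Polynomial.map_map, coeffMap_comp_evZ, coeffMap_jY, Polynomial.map_mul, Polynomial.map_C,
    coeffMap_evZ, coeffMap_jY, map_psi]
  exact h

theorem evZ_C (y : LaurentSeries R) (m : ℤ) :
    evZ R y (Polynomial.C m) = HahnSeries.C (m : R) := by
  rw [evZ, Polynomial.coe_eval₂RingHom, Polynomial.eval₂_C, eq_intCast, map_intCast]

/-- Over a field, a nonzero integer factor can be cancelled from the modular equation. -/
theorem Holds.of_mul {K : Type*} [Field K] {p : ℕ} [NeZero p] {ζ : Kˣ} {Φ : ℤ[X][X]} {m : ℤ}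
    (hm : (m : K) ≠ 0) (h : Holds K p ζ (Polynomial.C (Polynomial.C m) * Φ)) : Holds K p ζ Φ := by
  have hm' : (Polynomial.C (evZ K (jY K p) (Polynomial.C m)) : (LaurentSeries K)[X]) ≠ 0 := by
    rw [Ne, Polynomial.C_eq_zero, evZ_C]
    exact fun h0 => hm (HahnSeries.C_injective (h0.trans (map_zero _).symm))
  unfold Holds at h ⊢
  rw [Polynomial.map_mul, Polynomial.map_C, Polynomial.coeff_C_mul, map_mul, map_mul,
    mul_assoc] at h
  exact mul_left_cancel₀ hm' h

end Holds

end Fermat.Agent.S28.Phi

end
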