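/-
S28, piece (Φ), part I (characteristic zero, over ℂ).

For a prime `p` the `p + 1` Laurent series `j(x^(p²))`, `j(ζ^b x)` (`b < p`, `ζ = exp(2πi/p)`)
are the roots of one polynomial of degree `p + 1` whose coefficients are polynomials (over `ℚ`)
in `j(x^p)`, up to the common factor `a(j(x^p))`.

Proof.  `[ℚ(j(q), j(q^p)) : ℚ(j(q))] ≤ p + 1` (landed S24 degree bound), so `j(q^p)` satisfies a
relation `∑_{i ≤ p+1} P_i(j(q)) j(q^p)^i = 0`, `P_i ∈ ℚ[T]` not all zero.  The expansion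
embeddings `Cusp.tauG γ` (`γ = 1` and `γ = S T^b`) all send `j(q)` to `j(x^p)` and send `j(q^p)`
to `j(x^(p²))`, resp. `j(ζ^b x)`; these `p + 1` series are pairwise distinct.
-/
import Fermat.Agent.S24.Mod.Cusp
import Fermat.Agent.S24.Mod.Degree
import Fermat.Agent.S24.CombIndex

set_option autoImplicit false

noncomputable section

open scoped MatrixGroups Real
open UpperHalfPlane ModularCurve HahnSeries Polynomial IntermediateField

namespace Fermat.Agent.S28.Phi

open Fermat.Agent.S24 Fermat.Agent.S23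

theorem dedekindPsi_prime {p : ℕ} (hp : p.Prime) : ModularCurve.dedekindPsi p = p + 1 := by
  rw [ModularCurve.dedekindPsi, hp.divisors, Finset.filter_true_of_mem, Finset.sum_pair hp.one_lt.ne,
    Nat.div_one, Nat.div_self hp.pos]
  intro d hd
  rcases Finset.mem_insert.mp hd with rfl | hd
  · exact squarefree_one
  · rw [Finset.mem_singleton.mp hd]
    exact hp.squarefree

section Rel

variable {L : Type*} [Field L] [Algebra ℚ L] (ι : L →+* ℂ)

include ι in
theorem finrank_le_succ {p : ℕ} (hp : p.Prime) [NeZero p] :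
    Module.finrank L⟮jElt L p⟯ ↥(FF L p) ≤ p + 1 := by
  have h := Degree.finrank_le ι p
  have h2 : Nat.card (SL(2, ℤ) ⧸ CongruenceSubgroup.Gamma0 p) = p + 1 := by
    rw [← dedekindPsi_prime hp, ← Comb.index_Gamma0 p]
    rfl
  rwa [h2] at h

/-- Elements of `L(j)` are quotients of polynomials in `j` with non-vanishing denominator. -/
theorem exists_mul_eq_of_mem {p : ℕ} [NeZero p] {x : ↥(FF L p)} (hx : x ∈ L⟮jElt L p⟯) :
    ∃ r s : L[X], aeval (jElt L p) s ≠ 0 ∧ x * aeval (jElt L p) s = aeval (jElt L p) r := by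
  obtain ⟨r, s, rfl⟩ := (IntermediateField.mem_adjoin_simple_iff L x).mp hx
  by_cases hs : aeval (jElt L p) s = 0
  · exact ⟨0, 1, by simp, by simp [hs]⟩
  · exact ⟨r, s, hs, div_mul_cancel₀ _ hs⟩

include ι in
/-- The algebraic relation between `j(q)` and `j(q^p)`, with polynomial coefficients. -/
theorem exists_rel {p : ℕ} (hp : p.Prime) [NeZero p] :
    ∃ P : ℕ → L[X], (∃ n, n < p + 2 ∧ aeval (jElt L p) (P n) ≠ 0) ∧
      ∑ i ∈ Finset.range (p + 2), aeval (jElt L p) (P i) * gen L p ⟨p, dvd_rfl⟩ ^ i = 0 := by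
  classical
  set g := gen L p ⟨p, dvd_rfl⟩ with hg
  have hfd : FiniteDimensional L⟮jElt L p⟯ ↥(FF L p) := Degree.finiteDimensional ι p
  have hint : IsIntegral L⟮jElt L p⟯ g := IsIntegral.of_finite L⟮jElt L p⟯ g
  have hdeg : (minpoly L⟮jElt L p⟯ g).natDegree < p + 2 := by
    have hfree : Module.Free L⟮jElt L p⟯ ↥(FF L p) := Module.Free.of_divisionRing _ _
    have h1 : (minpoly L⟮jElt L p⟯ g).natDegree ≤ Module.finrank L⟮jElt L p⟯ ↥(FF L p) :=
      minpoly.natDegree_le g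
    have h2 := finrank_le_succ ι hp
    omega
  set m := minpoly L⟮jElt L p⟯ g with hm
  have hcoef : ∀ i : ℕ, ∃ r s : L[X], aeval (jElt L p) s ≠ 0 ∧
      ((m.coeff i : L⟮jElt L p⟯) : ↥(FF L p)) * aeval (jElt L p) s = aeval (jElt L p) r :=
    fun i => exists_mul_eq_of_mem (m.coeff i).2
  choose r s hs hrs using hcoef
  set D : L[X] := ∏ k ∈ Finset.range (p + 2), s k with hD
  have hD0 : aeval (jElt L p) D ≠ 0 := by
    rw [hD, map_prod]
    exact Finset.prod_ne_zero_iff.mpr fun k _ => hs k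
  have hP : ∀ i ∈ Finset.range (p + 2),
      aeval (jElt L p) (r i * ∏ k ∈ (Finset.range (p + 2)).erase i, s k)
        = ((m.coeff i : L⟮jElt L p⟯) : ↥(FF L p)) * aeval (jElt L p) D := by
    intro i hi
    rw [hD, ← Finset.mul_prod_erase _ _ hi, map_mul, map_mul, ← hrs i]
    ring
  refine ⟨fun i => r i * ∏ k ∈ (Finset.range (p + 2)).erase i, s k, ⟨m.natDegree, hdeg, ?_⟩, ?_⟩
  · rw [hP _ (Finset.mem_range.mpr hdeg), (minpoly.monic hint).coeff_natDegree]
    simpa using hD0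
  · have h0 : aeval g m = 0 := minpoly.aeval L⟮jElt L p⟯ g
    rw [Polynomial.aeval_eq_sum_range' hdeg] at h0
    calc ∑ i ∈ Finset.range (p + 2),
          aeval (jElt L p) (r i * ∏ k ∈ (Finset.range (p + 2)).erase i, s k) * g ^ i
        = ∑ i ∈ Finset.range (p + 2), aeval (jElt L p) D * (m.coeff i • g ^ i) := by
          refine Finset.sum_congr rfl fun i hi => ?_
          rw [hP i hi, Algebra.smul_def]
          rw [show algebraMap L⟮jElt L p⟯ ↥(FF L p) (m.coeff i) = ((m.coeff i : L⟮jElt L p⟯) : ↥(FF L p)) from rfl]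
          ring
      _ = 0 := by rw [← Finset.mul_sum, h0, mul_zero]

end Rel

/-! ### The expansions -/

section Tau

variable {L : Type*} [Field L] [Algebra ℚ L] (ι : L →+* ℂ) (p : ℕ) [NeZero p]

theorem tauG_aeval (γ : SL(2, ℤ)) (P : L[X]) :
    Cusp.tauG ι p γ (aeval (jElt L p) P)
      = P.eval₂ (HahnSeries.C.comp ι) (qExpand ℂ p (coeffEmb ℂ jq)) := by
  rw [aeval_def, Polynomial.hom_eval₂]
  congr 1
  · exact RingHom.ext fun c => Cusp.tauG_algebraMap ι p γ c
  · rw [jElt, Cusp.tauG_gen, Cusp.fexp_one]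

/-- The relation, transported by all the expansion embeddings. -/
theorem exists_rel_fexp (hp : p.Prime) :
    ∃ P : ℕ → L[X],
      (∃ n, n < p + 2 ∧ (P n).eval₂ (HahnSeries.C.comp ι) (qExpand ℂ p (coeffEmb ℂ jq)) ≠ 0) ∧
      ∀ γ : SL(2, ℤ), ∑ i ∈ Finset.range (p + 2),
        (P i).eval₂ (HahnSeries.C.comp ι) (qExpand ℂ p (coeffEmb ℂ jq))
          * Cusp.fexp p γ ⟨p, dvd_rfl⟩ ^ i = 0 := by
  obtain ⟨P, ⟨n, hn, hPn⟩, hrel⟩ := exists_rel ι hp
  refine ⟨P, ⟨n, hn, ?_⟩, fun γ => ?_⟩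
  · rw [← tauG_aeval ι p 1]
    exact fun h => hPn ((Cusp.tauG ι p 1).injective (h.trans (map_zero _).symm))
  · have h := congrArg (Cusp.tauG ι p γ) hrel
    rw [map_sum, map_zero] at h
    rw [← h]
    refine Finset.sum_congr rfl fun i _ => ?_
    rw [map_mul, map_pow, tauG_aeval, Cusp.tauG_gen]

/-- `γ = 1`: the expansion of `j(p z)` at `∞`, in `x = q^(1/p)`, is `j(x^(p²))`. -/
theorem fexp_one_self [NeZero (p * p)] :
    Cusp.fexp p 1 ⟨p, dvd_rfl⟩ = qExpand ℂ (p * p) (coeffEmb ℂ jq) := by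
  refine (Cusp.hasU_fexp p 1 ⟨p, dvd_rfl⟩).unique_series
    ((Cusp.hasU_jFun.comp_dil (p * p)).congr fun z => ?_)
  rw [one_smul, JN.jN]
  congr 1
  apply UpperHalfPlane.ext
  rw [JN.coe_dil, JN.coe_dil, JN.coe_dil]
  push_cast
  ring

/-- The coset representatives `S T^b`. -/
def gam (b : ℕ) : SL(2, ℤ) := ModularGroup.S * ModularGroup.T ^ (b : ℤ)

theorem dil_gam_smul (b : ℕ) (z : ℍ) :
    JN.dil p (gam b • JN.dil p z) = ModularGroup.S • (((b : ℝ) / p : ℝ) +ᵥ z) := by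
  have hp0 : (p : ℂ) ≠ 0 := by exact_mod_cast NeZero.ne p
  apply UpperHalfPlane.ext
  rw [JN.coe_dil, gam, mul_smul, UpperHalfPlane.modular_T_zpow_smul, UpperHalfPlane.modular_S_smul,
    UpperHalfPlane.modular_S_smul]
  show (p : ℂ) * (-((((b : ℤ) : ℝ) +ᵥ JN.dil p z : ℍ) : ℂ))⁻¹
    = (-((((b : ℝ) / p : ℝ) +ᵥ z : ℍ) : ℂ))⁻¹
  rw [UpperHalfPlane.coe_vadd, UpperHalfPlane.coe_vadd, JN.coe_dil]
  have e : -((((b : ℝ) / p : ℝ) : ℂ) + (z : ℂ)) = -((((b : ℤ) : ℝ) : ℂ) + (p : ℂ) * z) / p := by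
    push_cast
    field_simp
  rw [e, inv_div, div_eq_mul_inv]

/-- `γ = S T^b`: the expansion of `j(p γ z)` in `x = q^(1/p)` is `j(ζ^b x)`. -/
theorem fexp_gam (b : ℕ) :
    Cusp.fexp p (gam b) ⟨p, dvd_rfl⟩
      = Cusp.twist (Complex.exp (2 * π * Complex.I * (((b : ℝ) / p : ℝ) : ℂ)))
          (Complex.exp_ne_zero _) (coeffEmb ℂ jq) := by
  refine (Cusp.hasU_fexp p (gam b) ⟨p, dvd_rfl⟩).unique_series
    ((Cusp.hasU_jFun.comp_vadd ((b : ℝ) / p)).congr fun z => ?_)
  rw [JN.jN, dil_gam_smul, JN.jFun_smul]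

end Tau

/-! ### The `p + 1` roots and the product formula -/

section Prod

variable (p : ℕ) [NeZero p]

/-- `ζ = exp (2 π i / p)`. -/
def zetaC : ℂ := Complex.exp (2 * π * Complex.I / p)

theorem zetaC_prim : IsPrimitiveRoot (zetaC p) p := Complex.isPrimitiveRoot_exp p (NeZero.ne p)

omit [NeZero p] in
theorem zetaC_ne_zero : zetaC p ≠ 0 := Complex.exp_ne_zero _

/-- The series `j(ζ^b x)`. -/
def rr (b : ℕ) : LaurentSeries ℂ :=
  Cusp.twist (zetaC p ^ b) (pow_ne_zero b (zetaC_ne_zero p)) (coeffEmb ℂ jq)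

/-- The series `j(x^(p²))`. -/
def rInf : LaurentSeries ℂ := qExpand ℂ p (qExpand ℂ p (coeffEmb ℂ jq))

theorem twist_congr {ξ ξ' : ℂ} (h : ξ = ξ') (hξ : ξ ≠ 0) (hξ' : ξ' ≠ 0) (x : LaurentSeries ℂ) :
    Cusp.twist ξ hξ x = Cusp.twist ξ' hξ' x := by
  subst h
  rfl

theorem fexp_gam' (b : ℕ) : Cusp.fexp p (gam b) ⟨p, dvd_rfl⟩ = rr p b := by
  rw [fexp_gam, rr]
  apply twist_congr
  rw [zetaC, ← Complex.exp_nat_mul]
  congr 1
  push_cast
  ring

theorem fexp_one_self' : Cusp.fexp p 1 ⟨p, dvd_rfl⟩ = rInf p := by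
  rw [fexp_one_self, rInf, qExpand_qExpand]

omit [NeZero p] in
theorem rr_coeff_neg_one (b : ℕ) : (rr p b).coeff (-1) = (zetaC p ^ b)⁻¹ := by
  rw [rr, Cusp.twist_coeff, coeffEmb_coeff, coeff_jq_neg_one, map_one, mul_one, zpow_neg_one]

theorem rInf_coeff_neg_one (hp : 1 < p) : (rInf p).coeff (-1) = 0 := by
  apply qExpand_coeff_of_not_dvd
  intro h
  have h1 : (p : ℤ) ∣ 1 := (dvd_neg).mp h
  have h2 := Int.eq_one_of_dvd_one (by positivity) h1
  omega

theorem rr_ne_rInf (hp : 1 < p) (b : ℕ) : rr p b ≠ rInf p := by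
  intro h
  have h1 := congrArg (fun x : LaurentSeries ℂ => x.coeff (-1)) h
  simp only [rr_coeff_neg_one, rInf_coeff_neg_one p hp] at h1
  exact inv_ne_zero (pow_ne_zero b (zetaC_ne_zero p)) h1

theorem rr_injOn : Set.InjOn (rr p) (Finset.range p : Set ℕ) := by
  intro b hb b' hb' h
  have h1 := congrArg (fun x : LaurentSeries ℂ => x.coeff (-1)) h
  simp only [rr_coeff_neg_one] at h1
  exact (zetaC_prim p).pow_inj (Finset.mem_range.mp hb) (Finset.mem_range.mp hb') (inv_injective h1)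

/-- **The modular equation over `ℂ`**, with coefficients in `L[j(x^p)]`. -/
theorem core {L : Type*} [Field L] [Algebra ℚ L] (ι : L →+* ℂ) (hp : p.Prime) :
    ∃ P : ℕ → L[X],
      (P (p + 1)).eval₂ (HahnSeries.C.comp ι) (qExpand ℂ p (coeffEmb ℂ jq)) ≠ 0 ∧
      ∑ i ∈ Finset.range (p + 2),
          Polynomial.C ((P i).eval₂ (HahnSeries.C.comp ι) (qExpand ℂ p (coeffEmb ℂ jq))) * X ^ i
        = Polynomial.C ((P (p + 1)).eval₂ (HahnSeries.C.comp ι) (qExpand ℂ p (coeffEmb ℂ jq)))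
            * ((X - Polynomial.C (rInf p)) * ∏ b ∈ Finset.range p, (X - Polynomial.C (rr p b))) := by
  classical
  obtain ⟨P, ⟨n, hn, hPn⟩, hrel⟩ := exists_rel_fexp ι p hp
  refine ⟨P, ?_⟩
  set c : ℕ → LaurentSeries ℂ := fun i =>
    (P i).eval₂ (HahnSeries.C.comp ι) (qExpand ℂ p (coeffEmb ℂ jq)) with hc
  set Q : (LaurentSeries ℂ)[X] := ∑ i ∈ Finset.range (p + 2), Polynomial.C (c i) * X ^ i with hQ
  have hcoeff : ∀ k, k < p + 2 → Q.coeff k = c k := by
    intro k hk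
    rw [hQ, Polynomial.finsetSum_coeff]
    simp only [Polynomial.coeff_C_mul_X_pow]
    rw [Finset.sum_ite_eq (Finset.range (p + 2)) k, if_pos (Finset.mem_range.mpr hk)]
  have hQ0 : Q ≠ 0 := fun h => hPn (by
    show c n = 0
    rw [← hcoeff n hn, h, Polynomial.coeff_zero])
  have hdeg : Q.natDegree ≤ p + 1 := by
    refine Polynomial.natDegree_sum_le_of_forall_le _ _ fun i hi => ?_
    exact (Polynomial.natDegree_C_mul_X_pow_le _ _).trans (by
      have := Finset.mem_range.mp hi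
      omega)
  have hroot : ∀ γ : SL(2, ℤ), Q.IsRoot (Cusp.fexp p γ ⟨p, dvd_rfl⟩) := by
    intro γ
    rw [Polynomial.IsRoot, hQ, Polynomial.eval_finsetSum, ← hrel γ]
    refine Finset.sum_congr rfl fun i _ => ?_
    rw [Polynomial.eval_mul, Polynomial.eval_C, Polynomial.eval_pow, Polynomial.eval_X]
  set s : Multiset (LaurentSeries ℂ) := rInf p ::ₘ (Multiset.range p).map (rr p) with hs
  have hnodup : s.Nodup := by
    rw [hs, Multiset.nodup_cons]
    refine ⟨?_, ?_⟩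
    · intro hmem
      obtain ⟨b, -, hb⟩ := Multiset.mem_map.mp hmem
      exact rr_ne_rInf p hp.one_lt b hb
    · refine Multiset.Nodup.map_on ?_ (Multiset.nodup_range p)
      intro b hb b' hb' h
      exact rr_injOn p (by simpa using hb) (by simpa using hb') h
  have hsub : s ≤ Q.roots := by
    rw [Multiset.le_iff_subset hnodup]
    intro x hx
    rw [Polynomial.mem_roots hQ0]
    rw [hs, Multiset.mem_cons] at hx
    rcases hx with rfl | hx
    · rw [← fexp_one_self']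
      exact hroot 1
    · obtain ⟨b, -, rfl⟩ := Multiset.mem_map.mp hx
      rw [← fexp_gam']
      exact hroot (gam b)
  have hcard : Multiset.card s = p + 1 := by
    rw [hs, Multiset.card_cons, Multiset.card_map, Multiset.card_range]
  have hroots : Q.roots = s :=
    (Multiset.eq_of_le_of_card_le hsub (by
      rw [hcard]
      exact (Polynomial.card_roots' Q).trans hdeg)).symm
  have hnat : Q.natDegree = p + 1 :=
    le_antisymm hdeg (by
      have := Polynomial.card_roots' Q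
      rw [hroots, hcard] at this
      exact this)
  have hlead : Q.leadingCoeff = c (p + 1) := by
    rw [Polynomial.leadingCoeff, hnat, hcoeff _ (by omega)]
  have hfac := Polynomial.C_leadingCoeff_mul_prod_multiset_X_sub_C
    (p := Q) (by rw [hroots, hcard, hnat])
  rw [hlead, hroots, hs, Multiset.map_cons, Multiset.prod_cons, Multiset.map_map] at hfac
  refine ⟨?_, ?_⟩
  · show c (p + 1) ≠ 0
    rw [← hlead]
    exact Polynomial.leadingCoeff_ne_zero.mpr hQ0
  · show Q = Polynomial.C (c (p + 1)) * _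
    rw [← hfac]
    rfl

end Prod

end Fermat.Agent.S28.Phi

end
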