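/-
S28, piece (Φ), part II: the modular equation of prime level `p` over `ℂ` with INTEGRAL
coefficients, normalised at a given prime `ℓ` (not all coefficients divisible by `ℓ`).
-/
import Fermat.Agent.S28.Phi.Core
import Fermat.Agent.S28.Phi.Basic

set_option autoImplicit false

noncomputable section

open ModularCurve HahnSeries Polynomial

namespace Fermat.Agent.S28.Phi

open Fermat.Agent.S24

/-- Clearing the denominators of a rational polynomial. -/
theorem exists_int_mul (P : ℚ[X]) :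
    ∃ (b : ℤ) (P' : ℤ[X]), b ≠ 0 ∧ P'.map (Int.castRingHom ℚ) = Polynomial.C (b : ℚ) * P := by
  obtain ⟨b, hbM, hb⟩ := IsLocalization.integerNormalization_spec (nonZeroDivisors ℤ) P
  refine ⟨b, IsLocalization.integerNormalization (nonZeroDivisors ℤ) P,
    nonZeroDivisors.ne_zero hbM, ?_⟩
  rw [← Polynomial.smul_eq_C_mul]
  rw [show (algebraMap ℤ ℚ) = Int.castRingHom ℚ from rfl] at hb
  rw [hb]
  ext k
  simp

theorem coeffEmb_jq : coeffEmb ℂ jq = jqModC ℂ := by
  rw [← jqModC_rat, coeffEmb, coeffMap_jqModC]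

section

variable (p : ℕ) [NeZero p]

/-- `ζ = exp (2 π i / p)` as a unit. -/
def zetaU : ℂˣ := Units.mk0 (zetaC p) (zetaC_ne_zero p)

omit [NeZero p] in
theorem rr_eq (b : ℕ) : rr p b = twistU (zetaU p ^ b) (jqModC ℂ) := by
  ext k
  rw [rr, Cusp.twist_coeff, twistU_coeff, coeffEmb_jq, Units.val_zpow_eq_zpow_val,
    Units.val_pow_eq_pow_val]
  rfl

theorem psi_complex :
    (X - Polynomial.C (rInf p)) * ∏ b ∈ Finset.range p, (X - Polynomial.C (rr p b))
      = psi ℂ p (zetaU p) := by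
  have h : ∀ b ∈ Finset.range p, (X - Polynomial.C (rr p b) : (LaurentSeries ℂ)[X])
      = X - Polynomial.C (twistU (zetaU p ^ b) (jqModC ℂ)) := fun b _ => by rw [rr_eq]
  rw [psi, rInf, coeffEmb_jq, Finset.prod_congr rfl h]

theorem evZ_eq_eval₂ (y : LaurentSeries ℂ) (Q : ℤ[X]) :
    evZ ℂ y Q
      = (Q.map (Int.castRingHom ℚ)).eval₂ (HahnSeries.C.comp (algebraMap ℚ ℂ)) y := by
  rw [Polynomial.eval₂_map, evZ, Polynomial.coe_eval₂RingHom]
  exact congrArg (fun f : ℤ →+* LaurentSeries ℂ => Q.eval₂ f y) (RingHom.ext_int _ _)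

/-- The modular equation over `ℂ` with integral coefficients. -/
theorem holds_complex (hp : p.Prime) :
    ∃ Φ : ℤ[X][X], Φ ≠ 0 ∧ Holds ℂ p (zetaU p) Φ := by
  classical
  obtain ⟨P, hP0, hP⟩ := core p (algebraMap ℚ ℂ) hp
  choose b P' hb hP' using fun i => exists_int_mul (P i)
  set n : ℤ := ∏ k ∈ Finset.range (p + 2), b k with hn
  have hn0 : n ≠ 0 := Finset.prod_ne_zero_iff.mpr fun k _ => hb k
  set P'' : ℕ → ℤ[X] := fun i =>
    Polynomial.C (∏ k ∈ (Finset.range (p + 2)).erase i, b k) * P' i with hP''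
  have hmap : ∀ i ∈ Finset.range (p + 2),
      (P'' i).map (Int.castRingHom ℚ) = Polynomial.C (n : ℚ) * P i := by
    intro i hi
    rw [hP'', Polynomial.map_mul, Polynomial.map_C, hP' i, ← mul_assoc, ← Polynomial.C_mul]
    congr 2
    rw [hn, ← Finset.mul_prod_erase _ _ hi, eq_intCast]
    push_cast
    ring
  set Y : LaurentSeries ℂ := qExpand ℂ p (coeffEmb ℂ jq) with hY
  have hYj : Y = jY ℂ p := by rw [hY, coeffEmb_jq, jY]
  have hev : ∀ i ∈ Finset.range (p + 2), evZ ℂ Y (P'' i)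
      = HahnSeries.C (n : ℂ) * (P i).eval₂ (HahnSeries.C.comp (algebraMap ℚ ℂ)) Y := by
    intro i hi
    rw [evZ_eq_eval₂, hmap i hi, Polynomial.eval₂_mul, Polynomial.eval₂_C]
    simp
  set Φ : ℤ[X][X] := ∑ i ∈ Finset.range (p + 2), Polynomial.C (P'' i) * X ^ i with hΦ
  have hcoeff : Φ.coeff (p + 1) = P'' (p + 1) := by
    rw [hΦ, Polynomial.finsetSum_coeff]
    simp only [Polynomial.coeff_C_mul_X_pow]
    rw [Finset.sum_ite_eq (Finset.range (p + 2)) (p + 1), if_pos (Finset.mem_range.mpr (by omega))]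
  have hmapΦ : Φ.map (evZ ℂ Y)
      = Polynomial.C (HahnSeries.C (n : ℂ)) * ∑ i ∈ Finset.range (p + 2),
          Polynomial.C ((P i).eval₂ (HahnSeries.C.comp (algebraMap ℚ ℂ)) Y) * X ^ i := by
    rw [hΦ, Polynomial.map_sum, Finset.mul_sum]
    refine Finset.sum_congr rfl fun i hi => ?_
    rw [Polynomial.map_mul, Polynomial.map_C, Polynomial.map_pow, Polynomial.map_X, hev i hi,
      Polynomial.C_mul, mul_assoc]
  have hholds : Holds ℂ p (zetaU p) Φ := by
    unfold Holds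
    rw [← hYj, hmapΦ, hP, hcoeff, hev _ (Finset.mem_range.mpr (by omega)), psi_complex,
      Polynomial.C_mul, mul_assoc]
  refine ⟨Φ, fun h0 => ?_, hholds⟩
  have h1 : evZ ℂ Y (Φ.coeff (p + 1)) = 0 := by rw [h0, Polynomial.coeff_zero, map_zero]
  rw [hcoeff, hev _ (Finset.mem_range.mpr (by omega))] at h1
  rcases mul_eq_zero.mp h1 with h2 | h2
  · exact hn0 (by exact_mod_cast HahnSeries.C_injective (h2.trans (map_zero _).symm))
  · exact hP0 h2

/-- The modular equation over `ℂ` with integral coefficients, not all divisible by `ℓ`. -/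
theorem holds_complex_prim (hp : p.Prime) {ℓ : ℕ} (hℓ : ℓ.Prime) :
    ∃ Φ : ℤ[X][X], ¬ Polynomial.C (Polynomial.C (ℓ : ℤ)) ∣ Φ ∧ Holds ℂ p (zetaU p) Φ := by
  obtain ⟨Φ, hΦ0, hΦ⟩ := holds_complex p hp
  have hu : ¬ IsUnit (Polynomial.C (Polynomial.C (ℓ : ℤ)) : ℤ[X][X]) := by
    rw [Polynomial.isUnit_C, Polynomial.isUnit_C, Int.isUnit_iff]
    rintro (h | h)
    · exact hℓ.one_lt.ne' (by exact_mod_cast h)
    · have : (0 : ℤ) ≤ (ℓ : ℤ) := by positivity
      omega
  obtain ⟨Φ', hΦ', hnd⟩ :=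
    (FiniteMultiplicity.of_not_isUnit hu hΦ0).exists_eq_pow_mul_and_not_dvd
  refine ⟨Φ', hnd, ?_⟩
  rw [hΦ', ← map_pow, ← map_pow] at hΦ
  exact hΦ.of_mul (by
    have : (ℓ : ℂ) ≠ 0 := by exact_mod_cast hℓ.ne_zero
    push_cast
    exact pow_ne_zero _ this)

end

end Fermat.Agent.S28.Phi

end
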