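/-
S28, piece (Φ), part III: the modular equation of prime level `p` over any field `κ` of
characteristic `ℓ` containing a primitive `p`-th root of unity `ζ`:

  `a(J(x^p)) · (X − J(x^(p²))) ∏_{b<p} (X − J(ζ^b x)) = Φ(J(x^p), X)`   in `κ((x))[X]`,

with `a ∈ κ[Y]` nonzero and `Φ ∈ κ[Y][X]` (`J = jqModC κ`).

Proof: the equation holds over `ℂ` with integral `Φ` not divisible by `ℓ` (`Char0.lean`); it
descends to `ℤ[ζ_p] = AdjoinRoot (cyclotomic p ℤ) ↪ ℂ` because all series involved have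
coefficients there, and is then pushed forward along `ℤ[ζ_p] → κ`.  The factor `a` does not
vanish mod `ℓ` since `J(x^p)` is transcendental over `κ`.
-/
import Fermat.Agent.S28.Phi.Char0

set_option autoImplicit false

noncomputable section

open ModularCurve HahnSeries Polynomial

namespace Fermat.Agent.S28.Phi

section Cyclo

variable (p : ℕ) [NeZero p]

theorem eval₂_cyclotomic_eq_zero {K : Type*} [Field K] (ζ : K) (hζ : IsPrimitiveRoot ζ p) :
    (cyclotomic p ℤ).eval₂ (Int.castRingHom K) ζ = 0 := by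
  rw [Polynomial.eval₂_eq_eval_map, Polynomial.map_cyclotomic]
  exact hζ.isRoot_cyclotomic (Nat.pos_of_ne_zero (NeZero.ne p))

/-- The ring hom `ℤ[ζ_p] → K`, `ζ_p ↦ ζ`. -/
def cycTo {K : Type*} [Field K] (ζ : K) (hζ : IsPrimitiveRoot ζ p) :
    AdjoinRoot (cyclotomic p ℤ) →+* K :=
  AdjoinRoot.lift (Int.castRingHom K) ζ (eval₂_cyclotomic_eq_zero p ζ hζ)

theorem cycTo_root {K : Type*} [Field K] (ζ : K) (hζ : IsPrimitiveRoot ζ p) :
    cycTo p ζ hζ (AdjoinRoot.root (cyclotomic p ℤ)) = ζ :=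
  AdjoinRoot.lift_root _

theorem cycTo_injective : Function.Injective (cycTo p (zetaC p) (zetaC_prim p)) := by
  rw [injective_iff_map_eq_zero]
  intro x hx
  obtain ⟨g, rfl⟩ := AdjoinRoot.mk_surjective x
  rw [cycTo, AdjoinRoot.lift_mk] at hx
  have hpos : 0 < p := Nat.pos_of_ne_zero (NeZero.ne p)
  have hint : IsIntegral ℤ (zetaC p) := (zetaC_prim p).isIntegral hpos
  have hdvd := minpoly.isIntegrallyClosed_dvd hint (p := g) hx
  rw [← Polynomial.cyclotomic_eq_minpoly (zetaC_prim p) hpos] at hdvd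
  exact AdjoinRoot.mk_eq_zero.mpr hdvd

theorem root_pow : (AdjoinRoot.root (cyclotomic p ℤ)) ^ p = 1 := by
  apply cycTo_injective p
  rw [map_pow, cycTo_root, map_one, (zetaC_prim p).pow_eq_one]

/-- `ζ_p` as a unit of `ℤ[ζ_p]`. -/
def zetaR : (AdjoinRoot (cyclotomic p ℤ))ˣ :=
  Units.ofPowEqOne _ p (root_pow p) (NeZero.ne p)

theorem map_zetaR {K : Type*} [Field K] (ζ : Kˣ) (hζ : IsPrimitiveRoot (ζ : K) p) :
    Units.map (cycTo p (ζ : K) hζ : AdjoinRoot (cyclotomic p ℤ) →* K) (zetaR p) = ζ :=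
  Units.ext (by
    show cycTo p (ζ : K) hζ (AdjoinRoot.root (cyclotomic p ℤ)) = ζ
    exact cycTo_root p _ hζ)

/-- The modular equation over any field with a primitive `p`-th root of unity, with integral
coefficients not all divisible by the prime `ℓ`. -/
theorem holds_field (κ : Type*) [Field κ] (hp : p.Prime) {ℓ : ℕ} (hℓ : ℓ.Prime) (ζ : κˣ)
    (hζ : IsPrimitiveRoot (ζ : κ) p) :
    ∃ Φ : ℤ[X][X], ¬ Polynomial.C (Polynomial.C (ℓ : ℤ)) ∣ Φ ∧ Holds κ p ζ Φ := by
  obtain ⟨Φ, hnd, hΦ⟩ := holds_complex_prim p hp hℓ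
  refine ⟨Φ, hnd, ?_⟩
  have h1 : Holds (AdjoinRoot (cyclotomic p ℤ)) p (zetaR p) Φ := by
    refine Holds.of_map (cycTo p (zetaC p) (zetaC_prim p)) (cycTo_injective p) ?_
    have h : Units.map (cycTo p (zetaC p) (zetaC_prim p) :
        AdjoinRoot (cyclotomic p ℤ) →* ℂ) (zetaR p) = zetaU p :=
      map_zetaR p (zetaU p) (zetaC_prim p)
    rw [h]
    exact hΦ
  have h2 := h1.map (cycTo p (ζ : κ) hζ)
  rwa [map_zetaR] at h2

end Cyclo

theorem aeval_comp_mapRingHom {κ : Type*} [Field κ] (y : LaurentSeries κ) :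
    (aeval y).toRingHom.comp (Polynomial.mapRingHom (Int.castRingHom κ)) = evZ κ y := by
  apply Polynomial.ringHom_ext
  · intro a
    simp [evZ]
  · simp [evZ]

/-- **The modular equation in characteristic `ℓ`**, with `j(x^(p²))` written as
`qExpand p (qExpand p j)`. -/
theorem exists_modular_eq_nested (κ : Type*) [Field κ] (ℓ p : ℕ) [Fact ℓ.Prime] [CharP κ ℓ] [NeZero p]
    (hp : p.Prime) (ζ : κˣ) (hζ : IsPrimitiveRoot (ζ : κ) p) :
    ∃ (a : κ[X]) (Φ : κ[X][X]), a ≠ 0 ∧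
      Φ.map (aeval (qExpand κ p (jqModC κ))).toRingHom
        = Polynomial.C (aeval (qExpand κ p (jqModC κ)) a)
          * ((X - Polynomial.C (qExpand κ p (qExpand κ p (jqModC κ))))
            * ∏ b ∈ Finset.range p, (X - Polynomial.C (twistU (ζ ^ b) (jqModC κ)))) := by
  obtain ⟨Φ₀, hnd, hΦ⟩ := holds_field p κ hp (Fact.out : ℓ.Prime) ζ hζ
  have key := aeval_comp_mapRingHom (qExpand κ p (jqModC κ))
  have key' : ∀ Q : ℤ[X], aeval (qExpand κ p (jqModC κ)) (Q.map (Int.castRingHom κ))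
      = evZ κ (jY κ p) Q := fun Q => by
    rw [jY, ← key]
    rfl
  have hmap : (Φ₀.map (Polynomial.mapRingHom (Int.castRingHom κ))).map
      (aeval (qExpand κ p (jqModC κ))).toRingHom = Φ₀.map (evZ κ (jY κ p)) := by
    rw [Polynomial.map_map, key, jY]
  refine ⟨(Φ₀.coeff (p + 1)).map (Int.castRingHom κ),
    Φ₀.map (Polynomial.mapRingHom (Int.castRingHom κ)), fun ha => hnd ?_, ?_⟩
  · -- `a = 0` would force all coefficients of `Φ₀` to be divisible by `ℓ`
    have h0 : Φ₀.map (evZ κ (jY κ p)) = 0 := by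
      rw [hΦ, ← key', ha, map_zero, Polynomial.C_0, zero_mul]
    rw [Polynomial.C_dvd_iff_dvd_coeff]
    intro i
    rw [Polynomial.C_dvd_iff_dvd_coeff]
    intro k
    have h1 : evZ κ (jY κ p) (Φ₀.coeff i) = 0 := by
      rw [← Polynomial.coeff_map, h0, Polynomial.coeff_zero]
    rw [← key'] at h1
    have h2 : (Φ₀.coeff i).map (Int.castRingHom κ) = 0 := by
      by_contra hne
      exact aeval_qExpand_jqModC_ne_zero κ p hne h1
    have h3 := congrArg (fun Q : κ[X] => Q.coeff k) h2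
    simp only [Polynomial.coeff_map, Polynomial.coeff_zero, eq_intCast] at h3
    exact (CharP.intCast_eq_zero_iff κ ℓ _).mp h3
  · rw [hmap, key']
    exact hΦ

/-- **The modular equation in characteristic `ℓ`** (consumer form):
`a(J(x^p)) · (X − J(x^(p²))) ∏_{b<p} (X − J(ζ^b x)) = Φ(J(x^p), X)` in `κ((x))[X]`, `a ≠ 0`. -/
theorem exists_modular_eq (κ : Type*) [Field κ] (ℓ p : ℕ) [Fact ℓ.Prime] [CharP κ ℓ] [NeZero p]
    (hp : p.Prime) (ζ : κˣ) (hζ : IsPrimitiveRoot (ζ : κ) p) :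
    ∃ (a : κ[X]) (Φ : κ[X][X]), a ≠ 0 ∧
      Φ.map (aeval (qExpand κ p (jqModC κ))).toRingHom
        = Polynomial.C (aeval (qExpand κ p (jqModC κ)) a)
          * ((X - Polynomial.C (qExpand κ (p ^ 2) (jqModC κ)))
            * ∏ b ∈ Finset.range p, (X - Polynomial.C (twistU (ζ ^ b) (jqModC κ)))) := by
  obtain ⟨a, Φ, ha, h⟩ := exists_modular_eq_nested κ ℓ p hp ζ hζ
  refine ⟨a, Φ, ha, ?_⟩
  rw [h, qExpand_qExpand, qExpand_congr (show p * p = p ^ 2 by ring)]

end Fermat.Agent.S28.Phi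

end
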